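import Fermat.Agent.A2.IF.H429.IF

/-!
# S36 engine, leaf UNR (helper505): the inertia field is an unramified good level

`E = ℚ̄^{I_P}` for a place `P` of `ℚ̄` over `q`.  Then `E` is a good level for `P`
(`A2.GoodField`: `P ∩ E` is a henselian DVR with algebraically closed residue field, inertia
acts trivially) and `q` is a uniformiser of `P ∩ E`.

* `goodField_inertiaField` : `A2.GoodField P (ℚ̄^{I_P})`;
* `mul_inv_mem_of_mem_nonunits` : `e ∈ ℚ̄^{I_P}`, `e ∈ 𝔪_P` ⟹ `e / q ∈ P`;
* `unr` : both, in the exact (unfolded) shape of `S36.Eng.InertiaFieldStatement`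
  (`S36/Eng/Top.lean`, architect helper996), i.e.
  `fun q hq P hP => unr q hq P hP : InertiaFieldStatement`.

Everything is a repackaging of `A2/IF/H429` (helper429), on main.
-/

set_option autoImplicit false

namespace Fermat.Agent.S36.H505

open Fermat.Agent.A2 Fermat.Agent.A2.IF.H429

/-- The inertia field of `P` is a good level for `P`. -/
theorem goodField_inertiaField (q : ℕ) (hq : q.Prime) (P : ValuationSubring Qb)
    (hP : P.LiesOverPrime q) :
    GoodField P (IntermediateField.fixedField (P.inertiaSubgroupIn ℚ)) := by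
  change GoodField P (inertiaField P)
  have hfix : ∀ τ ∈ P.inertiaSubgroupIn ℚ, ∀ e : Qb, e ∈ inertiaField P → τ e = e :=
    fun τ hτ e he => (mem_inertiaField_iff P).mp he τ hτ
  refine
    { stable := fun τ hτ e he => by rw [hfix τ hτ e he]; exact he
      dvr := ?_
      henselian := henselian_RE P (inertiaField P) le_rfl
      algClosed := isAlgClosed_residueField_RE P (inertiaField P) q hq hP le_rfl
      trivial_mod := fun _ hτ _ _ heP => sub_mem_nonunits_of_inertia P hτ heP
      finite_order := fun τ hτ => ⟨1, one_pos, fun e he => by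
        rw [Function.iterate_one]; exact hfix τ hτ e he⟩ }
  refine isDiscreteValuationRing_RE_of_pow P q hq hP (inertiaField P) 1 one_pos ?_
  intro x hx hx0
  obtain ⟨k, hk⟩ := exists_zpow_of_mem_inertiaField P q hq hP x hx hx0
  refine ⟨k, ?_⟩
  have hq0 : P.valuation (q : Qb) ≠ 0 := valuation_natCast_ne_zero P q hq
  rw [map_div₀, map_zpow₀, div_eq_one_iff_eq (zpow_ne_zero k hq0)] at hk
  rw [pow_one]
  exact hk

/-- `q` is a uniformiser of `P ∩ ℚ̄^{I_P}`: an element of the inertia field lying in the maximal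
ideal of `P` is divisible by `q` in `P`. -/
theorem mul_inv_mem_of_mem_nonunits (q : ℕ) (hq : q.Prime) (P : ValuationSubring Qb)
    (hP : P.LiesOverPrime q) (e : Qb)
    (he : e ∈ IntermediateField.fixedField (P.inertiaSubgroupIn ℚ)) (hen : e ∈ P.nonunits) :
    e * ((q : Qb))⁻¹ ∈ P := by
  by_cases he0 : e = 0
  · rw [he0, zero_mul]; exact P.zero_mem
  have he' : e ∈ inertiaField P := he
  obtain ⟨k, hk⟩ := exists_zpow_of_mem_inertiaField P q hq hP e he' he0
  have hq0 : P.valuation (q : Qb) ≠ 0 := valuation_natCast_ne_zero P q hq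
  have hqlt : P.valuation (q : Qb) < 1 := valuation_natCast_lt_one P q hP
  rw [map_div₀, map_zpow₀, div_eq_one_iff_eq (zpow_ne_zero k hq0)] at hk
  have helt : P.valuation e < 1 := (ValuationSubring.mem_nonunits_iff P).mp hen
  -- `k ≥ 1`
  have hk1 : 1 ≤ k := by
    by_contra hlt
    have hk0 : k ≤ 0 := by omega
    have h1 : (1 : ValuationSubring.ValueGroup P) ≤ P.valuation (q : Qb) ^ k := by
      obtain ⟨n, rfl⟩ : ∃ n : ℕ, k = -(n : ℤ) := ⟨(-k).toNat, by omega⟩
      rw [zpow_neg, zpow_natCast]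
      have h2 : P.valuation (q : Qb) ^ n ≤ 1 := pow_le_one' hqlt.le n
      have h3 : P.valuation (q : Qb) ^ n ≠ 0 := pow_ne_zero n hq0
      exact (one_le_inv₀ (zero_lt_iff.mpr h3)).mpr h2
    rw [← hk] at h1
    exact absurd helt (not_lt.mpr h1)
  rw [← ValuationSubring.valuation_le_one_iff, map_mul, map_inv₀, hk]
  obtain ⟨n, rfl⟩ : ∃ n : ℕ, k = (n : ℤ) + 1 := ⟨(k - 1).toNat, by omega⟩
  rw [zpow_add_one₀ hq0, mul_assoc, mul_inv_cancel₀ hq0, mul_one, zpow_natCast]
  exact pow_le_one' hqlt.le n

/-- **UNR.**  The inertia field `ℚ̄^{I_P}` of a place `P` over `q` is an unramified good level: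
this is `S36.Eng.InertiaFieldStatement` with `Eng.Unramified` and `Eng.inertiaFld` unfolded. -/
theorem unr (q : ℕ) (hq : q.Prime) (P : ValuationSubring Qb) (hP : P.LiesOverPrime q) :
    GoodField P (IntermediateField.fixedField (P.inertiaSubgroupIn ℚ)) ∧
      ∀ e : (IntermediateField.fixedField (P.inertiaSubgroupIn ℚ) : IntermediateField ℚ Qb),
        (e : Qb) ∈ P.nonunits → (e : Qb) * ((q : Qb))⁻¹ ∈ P :=
  ⟨goodField_inertiaField q hq P hP,
    fun e he => mul_inv_mem_of_mem_nonunits q hq P hP (e : Qb) e.2 he⟩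

end Fermat.Agent.S36.H505
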